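/-
PROJECT T (S56), block (a1-II) Base, TI = module half (helper26; group half = TI/Sylow.lean, helper4).

Higman's criterion as a predicate for "direct summand of a free module":
`IsHigman ρ := ∃ t : Y →ₗ[k] Y, ∀ y, ∑ g, ρ g (t (ρ g⁻¹ y)) = y`.

* closure: equivariant isomorphisms, Maschke, passage from a subgroup of invertible index,
  free permutation actions;
* `IsHigman.exists_summand`: the explicit retraction of a free module;
* `isHigman_sumZero`: the sum-zero part of `Ω → X` is Higman when a subgroup `P` of invertible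
  index fixes a base point `o` and acts freely on `Ω \ {o}` (the TI situation of `GL₂`).
-/
import Mathlib

set_option autoImplicit false

namespace Fermat.Agent.S56.Base.TI.Proj

open scoped BigOperators

section Defs

variable {k G Y : Type*} [CommRing k] [Group G] [AddCommGroup Y] [Module k Y]

/-- **Higman's criterion**: the identity of `Y` is a trace from the trivial subgroup. Equivalent to
"`Y` is a direct summand of a free `k[G]`-module" (see `IsHigman.exists_summand`). -/
def IsHigman [Fintype G] (ρ : Representation k G Y) : Prop :=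
  ∃ t : Y →ₗ[k] Y, ∀ y, ∑ g : G, ρ g (t (ρ g⁻¹ y)) = y

lemma rho_inv_apply (ρ : Representation k G Y) (g : G) (y : Y) : ρ g⁻¹ (ρ g y) = y := by
  rw [← Module.End.mul_apply, ← map_mul, inv_mul_cancel, map_one, Module.End.one_apply]

lemma rho_apply_inv (ρ : Representation k G Y) (g : G) (y : Y) : ρ g (ρ g⁻¹ y) = y := by
  rw [← Module.End.mul_apply, ← map_mul, mul_inv_cancel, map_one, Module.End.one_apply]

/-- Transport along an equivariant isomorphism. -/
theorem IsHigman.of_equiv [Fintype G] {Y' : Type*} [AddCommGroup Y'] [Module k Y']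
    {ρ : Representation k G Y} {ρ' : Representation k G Y'} (h : IsHigman ρ) (e : Y ≃ₗ[k] Y')
    (he : ∀ g y, e (ρ g y) = ρ' g (e y)) : IsHigman ρ' := by
  obtain ⟨t, ht⟩ := h
  have he' : ∀ g y', e.symm (ρ' g y') = ρ g (e.symm y') := fun g y' => by
    apply e.injective
    rw [he, e.apply_symm_apply, e.apply_symm_apply]
  refine ⟨e.toLinearMap ∘ₗ t ∘ₗ e.symm.toLinearMap, fun y' => ?_⟩
  have : ∀ g : G, ρ' g ((e.toLinearMap ∘ₗ t ∘ₗ e.symm.toLinearMap) (ρ' g⁻¹ y')) =
      e (ρ g (t (ρ g⁻¹ (e.symm y')))) := fun g => by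
    rw [he]
    simp only [LinearMap.comp_apply, LinearEquiv.coe_coe]
    rw [he']
  rw [Finset.sum_congr rfl fun g _ => this g, ← map_sum, ht, e.apply_symm_apply]

/-- Maschke: if `#G` is invertible, every representation is Higman. -/
theorem isHigman_of_isUnit_card [Fintype G] (ρ : Representation k G Y)
    (h : IsUnit (Fintype.card G : k)) : IsHigman ρ := by
  obtain ⟨u, hu⟩ := h
  refine ⟨(↑u⁻¹ : k) • LinearMap.id, fun y => ?_⟩
  have : ∀ g : G, ρ g (((↑u⁻¹ : k) • LinearMap.id : Y →ₗ[k] Y) (ρ g⁻¹ y)) = (↑u⁻¹ : k) • y :=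
    fun g => by
      rw [LinearMap.smul_apply, LinearMap.id_apply, map_smul, rho_apply_inv]
  rw [Finset.sum_congr rfl fun g _ => this g, Finset.sum_const, Finset.card_univ,
    ← Nat.cast_smul_eq_nsmul k, smul_smul, ← hu, Units.mul_inv, one_smul]

/-- `(G ⧸ P) × P ≃ G`, `(q, x) ↦ q.out * x`. -/
noncomputable def cosetProdEquiv (P : Subgroup G) : (G ⧸ P) × P ≃ G where
  toFun a := a.1.out * (a.2 : G)
  invFun g := ⟨(g : G ⧸ P), ⟨((g : G ⧸ P).out)⁻¹ * g, by
    rw [← QuotientGroup.eq]
    exact QuotientGroup.out_eq' _⟩⟩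
  left_inv := by
    rintro ⟨q, x⟩
    have hq : ((q.out * (x : G) : G) : G ⧸ P) = q := by
      rw [QuotientGroup.mk_mul_of_mem _ x.2]
      exact QuotientGroup.out_eq' q
    apply Prod.ext
    · exact hq
    · apply Subtype.ext
      change ((q.out * (x : G) : G) : G ⧸ P).out⁻¹ * (q.out * (x : G)) = x
      rw [hq, inv_mul_cancel_left]
  right_inv g := by
    change (g : G ⧸ P).out * ((g : G ⧸ P).out⁻¹ * g) = g
    rw [mul_inv_cancel_left]

/-- Passage from a subgroup of invertible index. -/
theorem IsHigman.of_subgroup [Fintype G] (ρ : Representation k G Y) (P : Subgroup G) [Fintype P]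
    (hidx : IsUnit (P.index : k))
    (h : IsHigman (MonoidHom.comp ρ P.subtype : Representation k P Y)) : IsHigman ρ := by
  classical
  obtain ⟨t, ht⟩ := h
  obtain ⟨u, hu⟩ := hidx
  have : Fintype (G ⧸ P) := Fintype.ofFinite _
  have ht' : ∀ y, ∑ x : P, ρ (x : G) (t (ρ ((x : G))⁻¹ y)) = y := fun y => by
    have := ht y
    simpa using this
  refine ⟨(↑u⁻¹ : k) • t, fun y => ?_⟩
  have h1 : ∀ g : G, ρ g (((↑u⁻¹ : k) • t) (ρ g⁻¹ y)) = (↑u⁻¹ : k) • ρ g (t (ρ g⁻¹ y)) := fun g => by
    rw [LinearMap.smul_apply, map_smul]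
  rw [Finset.sum_congr rfl fun g _ => h1 g, ← Finset.smul_sum,
    ← Equiv.sum_comp (cosetProdEquiv P) (fun g => ρ g (t (ρ g⁻¹ y))), Fintype.sum_prod_type]
  have h2 : ∀ q : G ⧸ P, ∑ x : P, ρ (cosetProdEquiv P (q, x)) (t (ρ (cosetProdEquiv P (q, x))⁻¹ y))
      = y := fun q => by
    have h3 : ∀ x : P, ρ (cosetProdEquiv P (q, x)) (t (ρ (cosetProdEquiv P (q, x))⁻¹ y)) =
        ρ q.out (ρ (x : G) (t (ρ ((x : G))⁻¹ (ρ q.out⁻¹ y)))) := fun x => by
      change ρ (q.out * (x : G)) (t (ρ (q.out * (x : G))⁻¹ y)) = _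
      rw [mul_inv_rev, map_mul, map_mul, Module.End.mul_apply, Module.End.mul_apply]
    rw [Finset.sum_congr rfl fun x _ => h3 x, ← map_sum, ht', rho_apply_inv]
  rw [Finset.sum_congr rfl fun q _ => h2 q, Finset.sum_const, Finset.card_univ,
    ← Nat.card_eq_fintype_card, ← Subgroup.index_eq_card, ← Nat.cast_smul_eq_nsmul k, smul_smul,
    ← hu, Units.inv_mul, one_smul]

end Defs

section Perm

variable {k G X : Type*} [CommRing k] [Group G] [AddCommGroup X] [Module k X]

/-- The representation on functions `Ω → X`: `(g F)(ω) = ρ g (F (g⁻¹ • ω))`. -/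
def funRep (Ω : Type*) [MulAction G Ω] (ρ : Representation k G X) :
    Representation k G (Ω → X) where
  toFun g :=
    { toFun := fun F ω => ρ g (F (g⁻¹ • ω))
      map_add' := fun F F' => funext fun ω => by
        rw [Pi.add_apply, Pi.add_apply, map_add]
      map_smul' := fun a F => funext fun ω => by
        rw [Pi.smul_apply, Pi.smul_apply, map_smul, RingHom.id_apply] }
  map_one' := LinearMap.ext fun F => funext fun ω => by
    change ρ 1 (F ((1 : G)⁻¹ • ω)) = F ω
    rw [inv_one, one_smul, map_one, Module.End.one_apply]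
  map_mul' g h := LinearMap.ext fun F => funext fun ω => by
    change ρ (g * h) (F ((g * h)⁻¹ • ω)) = ρ g (ρ h (F (h⁻¹ • g⁻¹ • ω)))
    rw [mul_inv_rev, mul_smul, map_mul, Module.End.mul_apply]

@[simp] lemma funRep_apply (Ω : Type*) [MulAction G Ω] (ρ : Representation k G X) (g : G)
    (F : Ω → X) (ω : Ω) : funRep Ω ρ g F ω = ρ g (F (g⁻¹ • ω)) := rfl

/-- A free permutation action gives a Higman representation on functions. -/
theorem isHigman_funRep_of_free [Fintype G] {S : Type*} [MulAction G S]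
    (ρ : Representation k G X) (hfree : ∀ (s : S) (x : G), x • s = s → x = 1) :
    IsHigman (funRep S ρ) := by
  classical
  let R : S → Prop := fun s => (Quotient.mk (MulAction.orbitRel G S) s).out = s
  let t : (S → X) →ₗ[k] (S → X) :=
    { toFun := fun F s => if R s then F s else 0
      map_add' := fun F F' => funext fun s => by
        by_cases h : R s
        · simp only [if_pos h, Pi.add_apply]
        · simp only [if_neg h, Pi.add_apply, add_zero]
      map_smul' := fun a F => funext fun s => by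
        by_cases h : R s
        · simp only [if_pos h, Pi.smul_apply, RingHom.id_apply]
        · simp only [if_neg h, Pi.smul_apply, RingHom.id_apply, smul_zero] }
  have ht : ∀ (F : S → X) (s : S), t F s = if R s then F s else 0 := fun _ _ => rfl
  refine ⟨t, fun F => funext fun s => ?_⟩
  rw [Finset.sum_apply]
  have hterm : ∀ x : G, (funRep S ρ x (t (funRep S ρ x⁻¹ F))) s =
      if R (x⁻¹ • s) then F s else 0 := fun x => by
    rw [funRep_apply, ht]
    by_cases h : R (x⁻¹ • s)
    · rw [if_pos h, if_pos h, funRep_apply, inv_inv, smul_inv_smul, rho_apply_inv]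
    · rw [if_neg h, if_neg h, map_zero]
  rw [Finset.sum_congr rfl fun x _ => hterm x]
  obtain ⟨y, hy⟩ : ∃ y : G, y • s = (Quotient.mk (MulAction.orbitRel G S) s).out := by
    have h := Quotient.mk_out (s := MulAction.orbitRel G S) s
    exact h
  have hR : ∀ x : G, R (x⁻¹ • s) ↔ x = y⁻¹ := fun x => by
    have hcl : Quotient.mk (MulAction.orbitRel G S) (x⁻¹ • s) =
        Quotient.mk (MulAction.orbitRel G S) s :=
      Quotient.sound (MulAction.mem_orbit s x⁻¹)
    change (Quotient.mk (MulAction.orbitRel G S) (x⁻¹ • s)).out = x⁻¹ • s ↔ _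
    rw [hcl, ← hy]
    constructor
    · intro h
      have h1 : (x * y) • s = s := by rw [mul_smul, h, smul_inv_smul]
      have h2 := hfree s _ h1
      exact eq_inv_of_mul_eq_one_left h2
    · rintro rfl
      rw [inv_inv]
  rw [Finset.sum_eq_single y⁻¹]
  · rw [if_pos ((hR _).2 rfl)]
  · intro x _ hx
    rw [if_neg (fun h => hx ((hR x).1 h))]
  · intro h
    exact absurd (Finset.mem_univ _) h

end Perm

section SumZero

variable {k G X : Type*} [CommRing k] [Group G] [AddCommGroup X] [Module k X]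
  (Ω : Type*) [Fintype Ω] [MulAction G Ω] (ρ : Representation k G X)

/-- The sum of the values. -/
def sumMap : (Ω → X) →ₗ[k] X where
  toFun F := ∑ ω, F ω
  map_add' F F' := by simp only [Pi.add_apply, Finset.sum_add_distrib]
  map_smul' a F := by simp only [Pi.smul_apply, Finset.smul_sum, RingHom.id_apply]

variable {Ω} in
lemma sumMap_apply (F : Ω → X) : sumMap (k := k) Ω F = ∑ ω, F ω := rfl

lemma sumMap_funRep (g : G) (F : Ω → X) :
    sumMap (k := k) Ω (funRep Ω ρ g F) = ρ g (sumMap (k := k) Ω F) := by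
  rw [sumMap_apply, sumMap_apply, map_sum]
  simp only [funRep_apply]
  exact Equiv.sum_comp (MulAction.toPerm g⁻¹ : Equiv.Perm Ω) (fun ω => ρ g (F ω))

/-- The sum-zero functions. -/
def sumZero : Submodule k (Ω → X) := LinearMap.ker (sumMap (k := k) (X := X) Ω)

variable {Ω} in
lemma mem_sumZero {F : Ω → X} : F ∈ sumZero (k := k) Ω ↔ ∑ ω, F ω = 0 := by
  unfold sumZero
  rw [LinearMap.mem_ker, sumMap_apply]

lemma funRep_mem_sumZero (g : G) {F : Ω → X} (hF : F ∈ sumZero (k := k) Ω) :
    funRep Ω ρ g F ∈ sumZero (k := k) Ω := by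
  unfold sumZero at *
  rw [LinearMap.mem_ker] at *
  rw [sumMap_funRep, hF, map_zero]

/-- The representation on the sum-zero functions. -/
def sumZeroRep : Representation k G (sumZero (k := k) (X := X) Ω) where
  toFun g := (funRep Ω ρ g).restrict fun _ hF => funRep_mem_sumZero Ω ρ g hF
  map_one' := LinearMap.ext fun F => Subtype.ext (by
    change funRep Ω ρ 1 F.1 = F.1
    rw [map_one, Module.End.one_apply])
  map_mul' g h := LinearMap.ext fun F => Subtype.ext (by
    change funRep Ω ρ (g * h) F.1 = funRep Ω ρ g (funRep Ω ρ h F.1)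
    rw [map_mul, Module.End.mul_apply])

@[simp] lemma sumZeroRep_coe (g : G) (F : sumZero (k := k) (X := X) Ω) :
    (sumZeroRep Ω ρ g F : Ω → X) = funRep Ω ρ g F.1 := rfl

end SumZero

section Main

variable {k G X : Type*} [CommRing k] [Group G] [AddCommGroup X] [Module k X]
  {Ω : Type*} [Fintype Ω] [MulAction G Ω] (ρ : Representation k G X)

/-- The action of a subgroup fixing `o` on the complement of `o`. -/
@[reducible] def subAction (o : Ω) (P : Subgroup G) (hPo : ∀ x ∈ P, x • o = o) :
    MulAction P {ω : Ω // ω ≠ o} where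
  smul x ω := ⟨(x : G) • ω.1, fun h => ω.2 (by
    have h1 : ((x : G)⁻¹) • ((x : G) • ω.1) = (x : G)⁻¹ • o := by rw [h]
    rw [inv_smul_smul] at h1
    rw [h1]
    exact hPo _ (P.inv_mem x.2))⟩
  one_smul ω := Subtype.ext (one_smul G ω.1)
  mul_smul x y ω := Subtype.ext (mul_smul (x : G) (y : G) ω.1)

/-- Restriction to the complement of `o` identifies the sum-zero functions with all functions. -/
def resEquiv [DecidableEq Ω] (o : Ω) :
    sumZero (k := k) (X := X) Ω ≃ₗ[k] ({ω : Ω // ω ≠ o} → X) where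
  toFun F := fun ω => F.1 ω.1
  map_add' _ _ := rfl
  map_smul' _ _ := rfl
  invFun F' := ⟨fun ω => if h : ω = o then - ∑ ω', F' ω' else F' ⟨ω, h⟩, by
    rw [mem_sumZero, Fintype.sum_eq_add_sum_subtype_ne _ o, dif_pos rfl]
    have : ∀ ω' : {ω : Ω // ω ≠ o},
        (if h : ω'.1 = o then - ∑ ω', F' ω' else F' ⟨ω'.1, h⟩) = F' ω' := fun ω' => by
      rw [dif_neg ω'.2]
    rw [Finset.sum_congr rfl fun ω' _ => this ω', neg_add_cancel]⟩
  left_inv F := Subtype.ext (funext fun ω => by
    change (if h : ω = o then - ∑ ω' : {ω : Ω // ω ≠ o}, F.1 ω'.1 else F.1 ω) = F.1 ω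
    by_cases h : ω = o
    · rw [dif_pos h, h]
      have := mem_sumZero.1 F.2
      rw [Fintype.sum_eq_add_sum_subtype_ne _ o] at this
      exact (eq_neg_of_add_eq_zero_left this).symm
    · rw [dif_neg h])
  right_inv F' := funext fun ω' => by
    change (if h : ω'.1 = o then _ else F' ⟨ω'.1, h⟩) = F' ω'
    rw [dif_neg ω'.2]

/-- **The TI situation**: if a subgroup `P` of invertible index fixes `o` and acts freely on
`Ω \ {o}`, the sum-zero part of `Ω → X` is Higman, for every representation `X`. -/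
theorem isHigman_sumZero [Fintype G] (o : Ω) (P : Subgroup G) [Fintype P]
    (hPo : ∀ x ∈ P, x • o = o) (hidx : IsUnit (P.index : k))
    (hfree : ∀ ω : Ω, ω ≠ o → ∀ x ∈ P, x • ω = ω → x = 1) :
    IsHigman (sumZeroRep Ω ρ) := by
  classical
  refine IsHigman.of_subgroup _ P hidx ?_
  let _ := subAction o P hPo
  have hF : IsHigman (funRep {ω : Ω // ω ≠ o}
      (MonoidHom.comp ρ P.subtype : Representation k P X)) :=
    isHigman_funRep_of_free _ (fun ω' x hx =>
      Subtype.ext (hfree ω'.1 ω'.2 x x.2 (congrArg Subtype.val hx)))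
  refine hF.of_equiv (resEquiv (k := k) (X := X) o).symm (fun x F' => ?_)
  apply (resEquiv (k := k) (X := X) o).injective
  rw [LinearEquiv.apply_symm_apply]
  funext ω'
  have key : ∀ ω'' : {ω : Ω // ω ≠ o},
      ((resEquiv (k := k) (X := X) o).symm F').1 ω''.1 = F' ω'' := fun ω'' =>
    congrFun ((resEquiv (k := k) (X := X) o).apply_symm_apply F') ω''
  change funRep _ _ x F' ω' =
    (sumZeroRep Ω ρ (x : G) ((resEquiv (k := k) (X := X) o).symm F')).1 ω'.1
  rw [sumZeroRep_coe, funRep_apply, funRep_apply]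
  exact congrArg _ (key (x⁻¹ • ω')).symm

/-- The TI situation for `Ω = G ⧸ B`, in the shape of the clauses of `TI/Sylow.exists_borel`. -/
theorem isHigman_sumZero_quotient [Fintype G] (B P : Subgroup G) [Fintype P] [Fintype (G ⧸ B)]
    (hPB : P ≤ B) (hidx : IsUnit (P.index : k))
    (hfree : ∀ g, g ∉ B → ∀ x ∈ P, g⁻¹ * x * g ∈ B → x = 1) :
    IsHigman (sumZeroRep (G ⧸ B) ρ) := by
  refine isHigman_sumZero ρ ((1 : G) : G ⧸ B) P (fun x hx => ?_) hidx ?_
  · change (((x * 1 : G)) : G ⧸ B) = ((1 : G) : G ⧸ B)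
    rw [mul_one, QuotientGroup.eq, mul_one]
    exact B.inv_mem (hPB hx)
  · intro ω
    induction ω using QuotientGroup.induction_on with
    | H g =>
      intro hne x hx hfix
      have hg : g ∉ B := fun hg => hne (by
        rw [QuotientGroup.eq, mul_one]
        exact B.inv_mem hg)
      have h1 : (((x * g : G)) : G ⧸ B) = (g : G ⧸ B) := hfix
      rw [QuotientGroup.eq] at h1
      have h2 : g⁻¹ * x * g = ((x * g)⁻¹ * g)⁻¹ := by group
      exact hfree g hg x hx (by rw [h2]; exact B.inv_mem h1)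

end Main

section Summand

variable {k G Y : Type*} [Field k] [Group G] [Fintype G] [AddCommGroup Y] [Module k Y]

/-- **Higman ⇒ direct summand of a free module**, with explicit equivariant maps. The free module
is `Fin n → G → k` with `G` acting by `(g f) j x = f j (g⁻¹ * x)`. -/
theorem IsHigman.exists_summand [Module.Finite k Y] {ρ : Representation k G Y} (h : IsHigman ρ) :
    ∃ (n : ℕ) (i : Y →ₗ[k] (Fin n → G → k)) (r : (Fin n → G → k) →ₗ[k] Y),
      (∀ g y j x, i (ρ g y) j x = i y j (g⁻¹ * x)) ∧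
      (∀ g f, r (fun j x => f j (g⁻¹ * x)) = ρ g (r f)) ∧ ∀ y, r (i y) = y := by
  classical
  obtain ⟨t, ht⟩ := h
  let b := Module.finBasis k Y
  let i : Y →ₗ[k] (Fin (Module.finrank k Y) → G → k) :=
    { toFun := fun y j x => b.repr (t (ρ x⁻¹ y)) j
      map_add' := fun y y' => funext fun j => funext fun x => by
        simp only [map_add, Finsupp.coe_add, Pi.add_apply]
      map_smul' := fun a y => funext fun j => funext fun x => by
        simp only [map_smul, Finsupp.coe_smul, Pi.smul_apply, RingHom.id_apply] }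
  let r : (Fin (Module.finrank k Y) → G → k) →ₗ[k] Y :=
    { toFun := fun f => ∑ x : G, ρ x (∑ j, f j x • b j)
      map_add' := fun f f' => by
        simp only [Pi.add_apply, add_smul, Finset.sum_add_distrib, map_add]
      map_smul' := fun a f => by
        simp only [Pi.smul_apply, smul_eq_mul, mul_smul, RingHom.id_apply, Finset.smul_sum]
        refine Finset.sum_congr rfl fun x _ => ?_
        rw [← Finset.smul_sum, map_smul] }
  have hi : ∀ y j x, i y j x = b.repr (t (ρ x⁻¹ y)) j := fun _ _ _ => rfl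
  have hr : ∀ f, r f = ∑ x : G, ρ x (∑ j, f j x • b j) := fun _ => rfl
  refine ⟨_, i, r, fun g y j x => ?_, fun g f => ?_, fun y => ?_⟩
  · rw [hi, hi, mul_inv_rev, inv_inv, map_mul, Module.End.mul_apply]
  · rw [hr, hr, map_sum]
    rw [← Equiv.sum_comp (Equiv.mulLeft g)
      (fun x => ρ x (∑ j, f j (g⁻¹ * x) • b j))]
    refine Finset.sum_congr rfl fun x _ => ?_
    rw [Equiv.coe_mulLeft, inv_mul_cancel_left, map_mul, Module.End.mul_apply]
  · rw [hr]
    have : ∀ x : G, ρ x (∑ j, i y j x • b j) = ρ x (t (ρ x⁻¹ y)) := fun x => by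
      congr 1
      simp only [hi]
      exact b.sum_repr _
    rw [Finset.sum_congr rfl fun x _ => this x, ht]

end Summand

section Split

variable {k G X : Type*} [CommRing k] [Group G] [AddCommGroup X] [Module k X]
  (Ω : Type*) [Fintype Ω] [MulAction G Ω] (ρ : Representation k G X)

/-- The constant functions. -/
def constMap : X →ₗ[k] (Ω → X) where
  toFun a := fun _ => a
  map_add' _ _ := rfl
  map_smul' _ _ := rfl

omit [Fintype Ω] in
variable {Ω} in
@[simp] lemma constMap_apply (a : X) (ω : Ω) : constMap (k := k) Ω a ω = a := rfl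

omit [Fintype Ω] in
lemma funRep_constMap (g : G) (a : X) :
    funRep Ω ρ g (constMap (k := k) Ω a) = constMap (k := k) Ω (ρ g a) := rfl

lemma sumMap_constMap (a : X) :
    sumMap (k := k) Ω (constMap (k := k) Ω a) = (Fintype.card Ω : k) • a := by
  rw [sumMap_apply]
  simp only [constMap_apply, Finset.sum_const, Finset.card_univ]
  rw [Nat.cast_smul_eq_nsmul]

variable (u : kˣ)

/-- The average (with `u = #Ω` invertible). -/
def avgMap : (Ω → X) →ₗ[k] X := (↑u⁻¹ : k) • sumMap (k := k) Ω

variable {Ω} in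
lemma avgMap_apply (F : Ω → X) : avgMap Ω u F = (↑u⁻¹ : k) • sumMap (k := k) Ω F := rfl

lemma avgMap_funRep (g : G) (F : Ω → X) : avgMap Ω u (funRep Ω ρ g F) = ρ g (avgMap Ω u F) := by
  rw [avgMap_apply, avgMap_apply, sumMap_funRep, map_smul]

variable {u} in
lemma avgMap_constMap (hu : (u : k) = Fintype.card Ω) (a : X) :
    avgMap Ω u (constMap (k := k) Ω a) = a := by
  rw [avgMap_apply, sumMap_constMap, smul_smul, ← hu, Units.inv_mul, one_smul]

lemma avgMap_coe (Z : sumZero (k := k) (X := X) Ω) : avgMap Ω u Z.1 = 0 := by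
  have h : sumMap (k := k) Ω Z.1 = 0 := Z.2
  rw [avgMap_apply, h, smul_zero]

/-- The projection onto the sum-zero part. -/
def zPart (hu : (u : k) = Fintype.card Ω) : (Ω → X) →ₗ[k] sumZero (k := k) (X := X) Ω :=
  LinearMap.codRestrict _ (LinearMap.id - constMap (k := k) Ω ∘ₗ avgMap Ω u) fun F => by
    unfold sumZero
    rw [LinearMap.mem_ker, LinearMap.sub_apply, LinearMap.id_apply, LinearMap.comp_apply, map_sub,
      sumMap_constMap, avgMap_apply, smul_smul, ← hu, Units.mul_inv, one_smul, sub_self]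

variable {Ω u} in
lemma zPart_coe_apply (hu : (u : k) = Fintype.card Ω) (F : Ω → X) :
    ((zPart Ω u hu F : sumZero (k := k) (X := X) Ω) : Ω → X) =
      F - constMap (k := k) Ω (avgMap Ω u F) := rfl

variable {u} in
lemma zPart_funRep (hu : (u : k) = Fintype.card Ω) (g : G) (F : Ω → X) :
    zPart Ω u hu (funRep Ω ρ g F) = sumZeroRep Ω ρ g (zPart Ω u hu F) := by
  apply Subtype.ext
  rw [zPart_coe_apply, sumZeroRep_coe, zPart_coe_apply, map_sub, avgMap_funRep, funRep_constMap]

variable {u} in
lemma zPart_constMap (hu : (u : k) = Fintype.card Ω) (a : X) :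
    zPart Ω u hu (constMap (k := k) Ω a) = 0 := by
  apply Subtype.ext
  rw [zPart_coe_apply, avgMap_constMap Ω hu, sub_self]
  rfl

variable {u} in
lemma zPart_coe (hu : (u : k) = Fintype.card Ω) (Z : sumZero (k := k) (X := X) Ω) :
    zPart Ω u hu Z.1 = Z := by
  apply Subtype.ext
  rw [zPart_coe_apply, avgMap_coe, map_zero, sub_zero]

variable {u} in
lemma constMap_avgMap_add_zPart (hu : (u : k) = Fintype.card Ω) (F : Ω → X) :
    constMap (k := k) Ω (avgMap Ω u F) + (zPart Ω u hu F : Ω → X) = F := by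
  rw [zPart_coe_apply, add_sub_cancel]

end Split

end Fermat.Agent.S56.Base.TI.Proj
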