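/-
S56 / Base / TI (helper4): Sylow `p`-subgroups of a finite group of `2 × 2` matrices in
characteristic `p` are trivial-intersection subgroups whose normaliser is the stabiliser of a
line.  Pure linear algebra and group theory; Mathlib only.
-/
import Mathlib

set_option autoImplicit false
set_option linter.style.haveILetI false

namespace Fermat.Agent.S56.Base.TI

open Module

variable {k : Type*} [Field k] {p : ℕ} [hp : Fact p.Prime] [CharP k p]
  {V : Type*} [AddCommGroup V] [Module k V]
  {G : Type*} [Group G]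
  (r : G →* Module.End k V)

/-! ### Unipotent elements -/

omit hp [CharP k p] in
lemma pow_finrank_eq_zero_of_isNilpotent [Module.Finite k V] (φ : Module.End k V)
    (h : IsNilpotent φ) : φ ^ finrank k V = 0 := by
  have h1 := LinearMap.aeval_self_charpoly φ
  rw [h.charpoly_eq_X_pow_finrank] at h1
  simpa using h1

omit hp in
lemma charP_end (hV : finrank k V = 2) : CharP (Module.End k V) p := by
  haveI : Module.Finite k V := Module.finite_of_finrank_eq_succ hV
  haveI : Nontrivial V := Module.nontrivial_of_finrank_pos (R := k) (by omega)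
  exact charP_of_injective_algebraMap (FaithfulSMul.algebraMap_injective k (Module.End k V)) p

include hp in
/-- An element of `p`-power order acts unipotently: `(r x - 1) ^ 2 = 0` on a plane. -/
theorem sub_one_sq_eq_zero (hV : finrank k V = 2) {x : G} {n : ℕ} (hx : x ^ p ^ n = 1) :
    (r x - 1) ^ 2 = 0 := by
  haveI : Module.Finite k V := Module.finite_of_finrank_eq_succ hV
  haveI : CharP (Module.End k V) p := charP_end hV
  have h1 : (r x - 1) ^ p ^ n = 0 := by
    rw [sub_pow_char_pow_of_commute p n (Commute.one_right _), one_pow, ← map_pow, hx, map_one,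
      sub_self]
  have h2 := pow_finrank_eq_zero_of_isNilpotent (r x - 1) ⟨_, h1⟩
  rwa [hV] at h2

omit hp [CharP k p] in
/-- On a plane, a non-zero endomorphism killing `v ≠ 0` has kernel the line of `v`. -/
theorem ker_eq_span (hV : finrank k V = 2) {N : Module.End k V} (hN : N ≠ 0)
    {v : V} (hv : v ≠ 0) (hNv : N v = 0) : LinearMap.ker N = Submodule.span k {v} := by
  haveI : Module.Finite k V := Module.finite_of_finrank_eq_succ hV
  have hle : Submodule.span k {v} ≤ LinearMap.ker N := by
    rw [Submodule.span_singleton_le_iff_mem]; exact hNv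
  have h1 : finrank k (Submodule.span k {v}) = 1 := finrank_span_singleton hv
  have hne : LinearMap.ker N ≠ ⊤ := by
    intro h; exact hN (LinearMap.ker_eq_top.1 h)
  have h2 : finrank k (LinearMap.ker N) < 2 := by
    rw [← hV]; exact Submodule.finrank_lt hne
  have h3 : finrank k (Submodule.span k {v}) ≤ finrank k (LinearMap.ker N) :=
    Submodule.finrank_mono hle
  exact (Submodule.eq_of_le_of_finrank_eq hle (by omega)).symm

omit hp [CharP k p] in
lemma range_le_span (hV : finrank k V = 2) {N : Module.End k V} (hN : N ≠ 0) (hN2 : N ^ 2 = 0)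
    {v : V} (hv : v ≠ 0) (hNv : N v = 0) (w : V) : N w ∈ Submodule.span k {v} := by
  rw [← ker_eq_span hV hN hv hNv, LinearMap.mem_ker]
  have : (N ^ 2) w = 0 := by rw [hN2]; rfl
  simpa [pow_two] using this

/-! ### The two stabilisers -/

/-- The stabiliser in `G` of the line through `v`. -/
def lineStab (v : V) : Subgroup G where
  carrier := {g | ∃ c : k, r g v = c • v}
  one_mem' := ⟨1, by simp⟩
  mul_mem' := by
    rintro a b ⟨c, hc⟩ ⟨d, hd⟩
    refine ⟨d * c, ?_⟩
    rw [map_mul, Module.End.mul_apply, hd, map_smul, hc, smul_smul]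
  inv_mem' := by
    rintro a ⟨c, hc⟩
    have h1 : r a⁻¹ (r a v) = v := by
      rw [← Module.End.mul_apply, ← map_mul, inv_mul_cancel, map_one]; rfl
    rw [hc, map_smul] at h1
    by_cases hc0 : c = 0
    · refine ⟨0, ?_⟩
      rw [hc0, zero_smul] at h1
      rw [← h1, map_zero, smul_zero]
    · refine ⟨c⁻¹, ?_⟩
      calc r a⁻¹ v = c⁻¹ • (c • r a⁻¹ v) := by rw [smul_smul, inv_mul_cancel₀ hc0, one_smul]
        _ = c⁻¹ • v := by rw [h1]

omit hp [CharP k p] in
lemma mem_lineStab {v : V} {g : G} : g ∈ lineStab r v ↔ ∃ c : k, r g v = c • v := Iff.rfl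

omit hp [CharP k p] in
lemma mem_lineStab_iff_mem_span {v : V} {g : G} :
    g ∈ lineStab r v ↔ r g v ∈ Submodule.span k {v} := by
  rw [mem_lineStab, Submodule.mem_span_singleton]
  exact ⟨fun ⟨c, hc⟩ => ⟨c, hc.symm⟩, fun ⟨c, hc⟩ => ⟨c, hc.symm⟩⟩

/-- The elements of `G` fixing `v` and acting trivially on `V / k v`. -/
def unipStab (v : V) : Subgroup G where
  carrier := {g | r g v = v ∧ ∀ w, r g w - w ∈ Submodule.span k {v}}
  one_mem' := ⟨by simp, fun w => by simp⟩
  mul_mem' := by
    rintro a b ⟨ha, ha'⟩ ⟨hb, hb'⟩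
    refine ⟨by rw [map_mul, Module.End.mul_apply, hb, ha], fun w => ?_⟩
    have : r (a * b) w - w = (r a (r b w) - r b w) + (r b w - w) := by
      rw [map_mul, Module.End.mul_apply]; abel
    rw [this]
    exact Submodule.add_mem _ (ha' _) (hb' _)
  inv_mem' := by
    rintro a ⟨ha, ha'⟩
    have h1 : ∀ w, r a⁻¹ (r a w) = w := fun w => by
      rw [← Module.End.mul_apply, ← map_mul, inv_mul_cancel, map_one]; rfl
    have hv : r a⁻¹ v = v := by
      conv_lhs => rw [← ha]
      exact h1 v
    refine ⟨hv, fun w => ?_⟩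
    -- `a⁻¹ w - w = - a⁻¹ (a w' - w')` with `w' = a⁻¹ w`
    have h2 : ∀ w, r a (r a⁻¹ w) = w := fun w => by
      rw [← Module.End.mul_apply, ← map_mul, mul_inv_cancel, map_one]; rfl
    obtain ⟨c, hc⟩ := Submodule.mem_span_singleton.1 (ha' (r a⁻¹ w))
    rw [h2] at hc
    have : r a⁻¹ w - w = (-c) • v := by
      have h5 : w - r a⁻¹ w = c • v := hc.symm
      rw [neg_smul, ← h5]; abel
    rw [this]
    exact Submodule.smul_mem _ _ (Submodule.mem_span_singleton_self v)

omit hp [CharP k p] in
lemma mem_unipStab {v : V} {g : G} :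
    g ∈ unipStab r v ↔ r g v = v ∧ ∀ w, r g w - w ∈ Submodule.span k {v} := Iff.rfl

omit hp [CharP k p] in
lemma unipStab_le_lineStab (v : V) : unipStab r v ≤ lineStab r v :=
  fun _ hg => ⟨1, by rw [hg.1, one_smul]⟩

/-! ### `p`-subgroups -/

include hp in
/-- `unipStab r v` is a `p`-group (every element has order dividing `p`). -/
theorem pow_p_eq_one_of_mem_unipStab (hr : Function.Injective r) (hV : finrank k V = 2) {v : V}
    {g : G} (hg : g ∈ unipStab r v) : g ^ p = 1 := by
  haveI : CharP (Module.End k V) p := charP_end hV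
  have hN2 : (r g - 1) ^ 2 = 0 := by
    apply LinearMap.ext; intro w
    obtain ⟨c, hc⟩ := Submodule.mem_span_singleton.1 (hg.2 w)
    have h1 : (r g - 1) w = c • v := by
      rw [LinearMap.sub_apply, Module.End.one_apply]; exact hc.symm
    have h2 : (r g - 1) v = 0 := by
      rw [LinearMap.sub_apply, Module.End.one_apply, hg.1, sub_self]
    rw [pow_two, Module.End.mul_apply, h1, map_smul, h2, smul_zero]; rfl
  have h2le : 2 ≤ p := hp.out.two_le
  have h3 : (r g - 1) ^ p = 0 := by
    obtain ⟨m, rfl⟩ := Nat.exists_eq_add_of_le h2le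
    rw [pow_add, hN2, zero_mul]
  rw [sub_pow_char_of_commute p (Commute.one_right _), one_pow, ← map_pow, sub_eq_zero] at h3
  apply hr
  rw [h3, map_one]

include hp in
theorem isPGroup_unipStab (hr : Function.Injective r) (hV : finrank k V = 2) (v : V) :
    IsPGroup p (unipStab r v) := by
  rintro ⟨g, hg⟩
  refine ⟨1, ?_⟩
  ext
  simpa using pow_p_eq_one_of_mem_unipStab r hr hV hg

include hp in
/-- A `p`-subgroup fixing `v ≠ 0` is contained in `unipStab r v`. -/
theorem le_unipStab (hr : Function.Injective r) (hV : finrank k V = 2) {P : Subgroup G}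
    (hP : IsPGroup p P) {v : V} (hv : v ≠ 0) (hfix : ∀ x ∈ P, r x v = v) :
    P ≤ unipStab r v := by
  intro x hx
  by_cases hx1 : x = 1
  · rw [hx1]; exact one_mem _
  have hN : r x - 1 ≠ 0 := by
    intro h
    apply hx1; apply hr
    rw [map_one]; exact sub_eq_zero.1 h
  obtain ⟨n, hn⟩ := hP ⟨x, hx⟩
  have hn' : x ^ p ^ n = 1 := by
    have := congrArg Subtype.val hn
    simpa using this
  have hN2 := sub_one_sq_eq_zero r hV hn'
  have hNv : (r x - 1) v = 0 := by
    rw [LinearMap.sub_apply, Module.End.one_apply, hfix x hx, sub_self]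
  refine ⟨hfix x hx, fun w => ?_⟩
  have := range_le_span hV hN hN2 hv hNv w
  rwa [LinearMap.sub_apply, Module.End.one_apply] at this

include hp in
/-- A `p`-subgroup of `G` fixes a non-zero vector (`k` finite). -/
theorem exists_fixed_vector [Finite k] (hV : finrank k V = 2) {P : Subgroup G}
    (hP : IsPGroup p P) : ∃ v : V, v ≠ 0 ∧ ∀ x ∈ P, r x v = v := by
  haveI : Module.Finite k V := Module.finite_of_finrank_eq_succ hV
  haveI : Finite V := Module.finite_of_finite k
  letI : MulAction P V := MulAction.compHom V (r.comp P.subtype)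
  have hsmul : ∀ (x : P) (w : V), x • w = r x w := fun _ _ => rfl
  have h1 := hP.card_modEq_card_fixedPoints V
  have hcardV : p ∣ Nat.card V := by
    have h2 : Nat.card V = Nat.card k ^ 2 := by
      rw [Module.natCard_eq_pow_finrank (K := k) (V := V), hV]
    have h3 : p ∣ Nat.card k := by
      have h := addOrderOf_dvd_natCard (1 : k)
      have h' : addOrderOf (1 : k) = p :=
        CharP.eq k (CharP.addOrderOf_one k) (inferInstanceAs (CharP k p))
      rwa [h'] at h
    rw [h2]; exact dvd_pow h3 two_ne_zero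
  have h4 : p ∣ Nat.card (MulAction.fixedPoints P V) := by
    have := (Nat.modEq_zero_iff_dvd.2 hcardV).symm.trans h1
    exact Nat.modEq_zero_iff_dvd.1 this.symm
  by_contra hcon
  push Not at hcon
  have h5 : ∀ w : MulAction.fixedPoints P V, w = ⟨0, fun x => by rw [hsmul, map_zero]⟩ := by
    rintro ⟨w, hw⟩
    by_contra hne
    have hw0 : w ≠ 0 := fun h => hne (Subtype.ext h)
    obtain ⟨x, hxP, hx⟩ := hcon w hw0
    exact hx (hw ⟨x, hxP⟩)
  have h6 : Nat.card (MulAction.fixedPoints P V) = 1 := by
    rw [Nat.card_eq_one_iff_unique]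
    exact ⟨⟨fun a b => by rw [h5 a, h5 b]⟩, ⟨⟨0, fun x => by rw [hsmul, map_zero]⟩⟩⟩
  rw [h6] at h4
  exact hp.out.one_lt.ne' (Nat.dvd_one.1 h4)

/-! ### Normality, `p`-elements of the line stabiliser, trivial intersection -/

omit hp [CharP k p] in
/-- `lineStab r v` normalises `unipStab r v`. -/
theorem conj_mem_unipStab {v : V} {b x : G} (hb : b ∈ lineStab r v) (hx : x ∈ unipStab r v) :
    b * x * b⁻¹ ∈ unipStab r v := by
  obtain ⟨c, hc⟩ := hb
  obtain ⟨c', hc'⟩ := (lineStab r v).inv_mem ⟨c, hc⟩
  have h1 : ∀ w, r b (r b⁻¹ w) = w := fun w => by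
    rw [← Module.End.mul_apply, ← map_mul, mul_inv_cancel, map_one]; rfl
  have happ : ∀ w, r (b * x * b⁻¹) w = r b (r x (r b⁻¹ w)) := fun w => by
    rw [map_mul, map_mul, Module.End.mul_apply, Module.End.mul_apply]
  refine ⟨?_, fun w => ?_⟩
  · rw [happ, hc', map_smul, hx.1, ← hc', h1]
  · rw [happ]
    obtain ⟨d, hd⟩ := Submodule.mem_span_singleton.1 (hx.2 (r b⁻¹ w))
    have : r b (r x (r b⁻¹ w)) - w = r b (r x (r b⁻¹ w) - r b⁻¹ w) := by
      rw [map_sub, h1]
    rw [this, ← hd, map_smul, hc, smul_smul]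
    exact Submodule.smul_mem _ _ (Submodule.mem_span_singleton_self v)

include hp in
/-- An element of `p`-power order of the line stabiliser lies in `unipStab`. -/
theorem mem_unipStab_of_pow_eq_one (hr : Function.Injective r) (hV : finrank k V = 2) {v : V}
    (hv : v ≠ 0) {b : G} (hb : b ∈ lineStab r v) {n : ℕ} (hbn : b ^ p ^ n = 1) :
    b ∈ unipStab r v := by
  by_cases hb1 : b = 1
  · rw [hb1]; exact one_mem _
  have hN : r b - 1 ≠ 0 := by
    intro h
    apply hb1; apply hr
    rw [map_one]; exact sub_eq_zero.1 h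
  have hN2 := sub_one_sq_eq_zero r hV hbn
  obtain ⟨c, hc⟩ := hb
  have h1 : (r b - 1) v = (c - 1) • v := by
    rw [LinearMap.sub_apply, Module.End.one_apply, hc, sub_smul, one_smul]
  have h2 : ((r b - 1) ^ 2 : Module.End k V) v = ((c - 1) * (c - 1)) • v := by
    rw [pow_two, Module.End.mul_apply, h1, map_smul, h1, smul_smul]
  rw [hN2, LinearMap.zero_apply] at h2
  have hc1 : c = 1 := by
    rcases smul_eq_zero.1 h2.symm with h | h
    · rcases mul_self_eq_zero.1 h with h'
      exact sub_eq_zero.1 h'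
    · exact absurd h hv
  have hbv : r b v = v := by rw [hc, hc1, one_smul]
  have hNv : (r b - 1) v = 0 := by rw [h1, hc1, sub_self, zero_smul]
  refine ⟨hbv, fun w => ?_⟩
  have := range_le_span hV hN hN2 hv hNv w
  rwa [LinearMap.sub_apply, Module.End.one_apply] at this

include hp in
/-- **Trivial intersection / free action.**  If `x ∈ unipStab r v` and `g⁻¹ x g` stabilises the
line of `v` while `g` does not, then `x = 1`. -/
theorem eq_one_of_conj_mem_lineStab (hr : Function.Injective r) (hV : finrank k V = 2) {v : V}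
    (hv : v ≠ 0) {g x : G} (hg : g ∉ lineStab r v) (hx : x ∈ unipStab r v)
    (hgx : g⁻¹ * x * g ∈ lineStab r v) : x = 1 := by
  by_contra hx1
  have hxp : x ^ p ^ 1 = 1 := by
    rw [pow_one]; exact pow_p_eq_one_of_mem_unipStab r hr hV hx
  have hyp : (g⁻¹ * x * g) ^ p ^ 1 = 1 := by
    have h : g⁻¹ * x * g = g⁻¹ * x * (g⁻¹)⁻¹ := by rw [inv_inv]
    rw [h, conj_pow, hxp]; group
  have hy := mem_unipStab_of_pow_eq_one r hr hV hv hgx hyp
  -- `x` fixes `g v`
  have h1 : r x (r g v) = r g v := by
    have h2 := hy.1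
    rw [map_mul, map_mul, Module.End.mul_apply, Module.End.mul_apply] at h2
    have h3 := congrArg (r g) h2
    rwa [← Module.End.mul_apply, ← map_mul, mul_inv_cancel, map_one, Module.End.one_apply] at h3
  have hN : r x - 1 ≠ 0 := by
    intro h
    apply hx1; apply hr
    rw [map_one]; exact sub_eq_zero.1 h
  have hNv : (r x - 1) v = 0 := by
    rw [LinearMap.sub_apply, Module.End.one_apply, hx.1, sub_self]
  have hker := ker_eq_span hV hN hv hNv
  have hmem : r g v ∈ LinearMap.ker (r x - 1) := by
    rw [LinearMap.mem_ker, LinearMap.sub_apply, Module.End.one_apply, h1, sub_self]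
  rw [hker] at hmem
  exact hg ((mem_lineStab_iff_mem_span r).2 hmem)

/-! ### The two characters of the line stabiliser -/

section characters

variable {v : V}

omit hp [CharP k p] in
lemma smul_right_inj_of_ne_zero (hv : v ≠ 0) {c c' : k} (h : c • v = c' • v) : c = c' :=
  smul_left_injective k hv h

omit hp [CharP k p] in
/-- `lineStab r v` preserves the line of `v`. -/
lemma map_mem_span_of_mem_lineStab {b : G} (hb : b ∈ lineStab r v) {w : V}
    (hw : w ∈ Submodule.span k {v}) : r b w ∈ Submodule.span k {v} := by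
  obtain ⟨c, hc⟩ := hb
  obtain ⟨d, rfl⟩ := Submodule.mem_span_singleton.1 hw
  rw [map_smul, hc, smul_smul]
  exact Submodule.smul_mem _ _ (Submodule.mem_span_singleton_self v)

/-- The eigenvalue of `b ∈ lineStab r v` on `v`. -/
noncomputable def eig (b : lineStab r v) : k := Classical.choose b.2

omit hp [CharP k p] in
lemma eig_spec (b : lineStab r v) : r b v = eig r b • v := Classical.choose_spec b.2

omit hp [CharP k p] in
lemma eig_unique (hv : v ≠ 0) (b : lineStab r v) {c : k} (hc : r b v = c • v) : eig r b = c :=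
  smul_right_inj_of_ne_zero hv ((eig_spec r b).symm.trans hc)

/-- The eigenvalue of `b ∈ lineStab r v` on `v`, as a monoid homomorphism to `k`. -/
noncomputable def psi1Aux (hv : v ≠ 0) : lineStab r v →* k where
  toFun b := eig r b
  map_one' := eig_unique r hv 1 (by simp)
  map_mul' a b := by
    apply eig_unique r hv
    have ha := eig_spec r a
    have hb := eig_spec r b
    calc r (a * b : lineStab r v) v = r a (r b v) := by
          rw [Subgroup.coe_mul, map_mul]; rfl
      _ = (eig r a * eig r b) • v := by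
          rw [hb, map_smul, ha, smul_smul, mul_comm]

omit hp [CharP k p] in
lemma psi1Aux_spec (hv : v ≠ 0) (b : lineStab r v) : r b v = psi1Aux r hv b • v :=
  eig_spec r b

end characters

section quotientChar

variable {v : V}

omit hp [CharP k p] in
/-- On a plane there is a vector outside the line of `v`, and it spans `V` modulo that line. -/
lemma exists_compl_vector (hV : finrank k V = 2) (hv : v ≠ 0) :
    ∃ w₀ : V, w₀ ∉ Submodule.span k {v} ∧
      ∀ w : V, ∃ β : k, w - β • w₀ ∈ Submodule.span k {v} := by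
  haveI : Module.Finite k V := Module.finite_of_finrank_eq_succ hV
  have h1 : finrank k (Submodule.span k {v}) = 1 := finrank_span_singleton hv
  have hQ : finrank k (V ⧸ Submodule.span k {v}) = 1 := by
    have := Submodule.finrank_quotient_add_finrank (Submodule.span k {v})
    omega
  have hne : Submodule.span k {v} ≠ ⊤ := by
    intro h
    rw [h, finrank_top, hV] at h1
    omega
  obtain ⟨w₀, -, hw₀⟩ := SetLike.exists_of_lt (lt_top_iff_ne_top.2 hne)
  refine ⟨w₀, hw₀, fun w => ?_⟩
  have hq₀ : (Submodule.Quotient.mk w₀ : V ⧸ Submodule.span k {v}) ≠ 0 := by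
    rwa [Ne, Submodule.Quotient.mk_eq_zero]
  obtain ⟨β, hβ⟩ := (finrank_eq_one_iff_of_nonzero' _ hq₀).1 hQ (Submodule.Quotient.mk w)
  refine ⟨β, ?_⟩
  rw [← Submodule.Quotient.mk_eq_zero, Submodule.Quotient.mk_sub, Submodule.Quotient.mk_smul, hβ,
    sub_self]

omit hp [CharP k p] in
lemma eq_of_smul_sub_smul_mem {w₀ : V} (hw₀ : w₀ ∉ Submodule.span k {v}) {d d' : k}
    (h : d • w₀ - d' • w₀ ∈ Submodule.span k {v}) : d = d' := by
  by_contra hne
  apply hw₀
  have h1 : (d - d') • w₀ ∈ Submodule.span k {v} := by rwa [sub_smul]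
  have h2 := Submodule.smul_mem _ (d - d')⁻¹ h1
  rwa [smul_smul, inv_mul_cancel₀ (sub_ne_zero.2 hne), one_smul] at h2

/-- The scalar by which `b ∈ lineStab r v` acts on `V / k v` (computed on `w₀`). -/
noncomputable def qeig {w₀ : V} (hspan : ∀ w : V, ∃ β : k, w - β • w₀ ∈ Submodule.span k {v})
    (b : lineStab r v) : k := Classical.choose (hspan (r b w₀))

omit hp [CharP k p] in
lemma qeig_spec {w₀ : V} (hspan : ∀ w : V, ∃ β : k, w - β • w₀ ∈ Submodule.span k {v})
    (b : lineStab r v) : r b w₀ - qeig r hspan b • w₀ ∈ Submodule.span k {v} :=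
  Classical.choose_spec (hspan (r b w₀))

omit hp [CharP k p] in
lemma qeig_unique {w₀ : V} (hw₀ : w₀ ∉ Submodule.span k {v})
    (hspan : ∀ w : V, ∃ β : k, w - β • w₀ ∈ Submodule.span k {v})
    (b : lineStab r v) {d : k} (hd : r b w₀ - d • w₀ ∈ Submodule.span k {v}) :
    qeig r hspan b = d := by
  apply eq_of_smul_sub_smul_mem hw₀
  have := Submodule.sub_mem _ hd (qeig_spec r hspan b)
  have h2 : r b w₀ - d • w₀ - (r b w₀ - qeig r hspan b • w₀) =
      qeig r hspan b • w₀ - d • w₀ := by abel
  rwa [h2] at this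

omit hp [CharP k p] in
/-- `b ∈ lineStab r v` acts on `V / k v` by the scalar `qeig b`. -/
lemma sub_qeig_smul_mem {w₀ : V}
    (hspan : ∀ w : V, ∃ β : k, w - β • w₀ ∈ Submodule.span k {v})
    (b : lineStab r v) (w : V) : r b w - qeig r hspan b • w ∈ Submodule.span k {v} := by
  obtain ⟨β, hβ⟩ := hspan w
  have h1 : r b w - qeig r hspan b • w =
      β • (r b w₀ - qeig r hspan b • w₀) +
        (r b (w - β • w₀) - qeig r hspan b • (w - β • w₀)) := by
    rw [map_sub, map_smul, smul_sub, smul_sub, smul_smul, smul_smul, mul_comm β]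
    abel
  rw [h1]
  refine Submodule.add_mem _ (Submodule.smul_mem _ _ (qeig_spec r hspan b)) ?_
  exact Submodule.sub_mem _ (map_mem_span_of_mem_lineStab r b.2 hβ) (Submodule.smul_mem _ _ hβ)

/-- The action of the line stabiliser on `V / k v`, as a monoid homomorphism to `k`. -/
noncomputable def psi2Aux {w₀ : V} (hw₀ : w₀ ∉ Submodule.span k {v})
    (hspan : ∀ w : V, ∃ β : k, w - β • w₀ ∈ Submodule.span k {v}) : lineStab r v →* k where
  toFun b := qeig r hspan b
  map_one' := qeig_unique r hw₀ hspan 1 (by simp)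
  map_mul' a b := by
    apply qeig_unique r hw₀ hspan
    have h1 : r (a * b : lineStab r v) w₀ - (qeig r hspan a * qeig r hspan b) • w₀ =
        r a (r b w₀ - qeig r hspan b • w₀) +
          qeig r hspan b • (r a w₀ - qeig r hspan a • w₀) := by
      rw [Subgroup.coe_mul, map_mul, Module.End.mul_apply, map_sub, map_smul, smul_sub, smul_smul,
        mul_comm]
      abel
    rw [h1]
    exact Submodule.add_mem _ (map_mem_span_of_mem_lineStab r a.2 (qeig_spec r hspan b))
      (Submodule.smul_mem _ _ (qeig_spec r hspan a))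

end quotientChar

/-! ### The bundled statement -/

section bundle

variable [Finite k] [Finite G]

include hp in
/-- **The Borel structure of a finite subgroup of `GL₂` in characteristic `p`.**  There are a
vector `v ≠ 0`, its line stabiliser `B`, the two diagonal characters `ψ₁, ψ₂` of `B`, and
`P = ker ψ₁ ∩ ker ψ₂`, such that `P` is a Sylow `p`-subgroup of exponent `p`, normal in `B`, and
for `g ∉ B` no non-trivial element of `P` is conjugated into `B` by `g` (so `P` acts freely on
`G / B` minus the base point). -/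
theorem exists_borel (hV : finrank k V = 2) (rho : Representation k G V)
    (hinj : Function.Injective rho) :
    ∃ (v : V) (B P : Subgroup G) (psi1 psi2 : B →* kˣ), v ≠ 0 ∧
      (∀ g, g ∈ B ↔ ∃ a : k, rho g v = a • v) ∧
      (∀ b : B, rho b v = (psi1 b : k) • v ∧
        ∀ w, rho b w - (psi2 b : k) • w ∈ Submodule.span k {v}) ∧
      (∀ g, g ∈ P ↔ ∃ h : g ∈ B, psi1 ⟨g, h⟩ = 1 ∧ psi2 ⟨g, h⟩ = 1) ∧
      (∀ x ∈ P, x ^ p = 1) ∧ ¬ p ∣ P.index ∧
      (∀ b ∈ B, ∀ x ∈ P, b * x * b⁻¹ ∈ P) ∧
      (∀ g, g ∉ B → ∀ x ∈ P, g⁻¹ * x * g ∈ B → x = 1) := by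
  classical
  obtain ⟨S⟩ : Nonempty (Sylow p G) := inferInstance
  obtain ⟨v, hv, hfix⟩ := exists_fixed_vector (r := rho) hV S.isPGroup'
  have hle := le_unipStab rho hinj hV S.isPGroup' hv hfix
  have hSeq : unipStab rho v = (S : Subgroup G) :=
    S.is_maximal' (isPGroup_unipStab rho hinj hV v) hle
  obtain ⟨w₀, hw₀, hspan⟩ := exists_compl_vector hV hv
  refine ⟨v, lineStab rho v, unipStab rho v, (psi1Aux rho hv).toHomUnits,
    (psi2Aux rho hw₀ hspan).toHomUnits, hv, fun g => Iff.rfl, fun b => ⟨?_, fun w => ?_⟩,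
    fun g => ⟨fun hg => ?_, ?_⟩, fun x hx => pow_p_eq_one_of_mem_unipStab rho hinj hV hx, ?_,
    fun b hb x hx => conj_mem_unipStab rho hb hx,
    fun g hg x hx hgx => eq_one_of_conj_mem_lineStab rho hinj hV hv hg hx hgx⟩
  · exact psi1Aux_spec rho hv b
  · exact sub_qeig_smul_mem rho hspan b w
  · refine ⟨unipStab_le_lineStab rho v hg, ?_, ?_⟩
    · apply Units.ext
      rw [MonoidHom.coe_toHomUnits, Units.val_one]
      exact eig_unique rho hv _ (by rw [one_smul]; exact hg.1)
    · apply Units.ext
      rw [MonoidHom.coe_toHomUnits, Units.val_one]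
      refine qeig_unique rho hw₀ hspan _ ?_
      rw [one_smul]; exact hg.2 w₀
  · rintro ⟨h, h1, h2⟩
    have e1 : psi1Aux rho hv ⟨g, h⟩ = 1 := by
      have := congrArg Units.val h1
      simpa using this
    have e2 : psi2Aux rho hw₀ hspan ⟨g, h⟩ = 1 := by
      have := congrArg Units.val h2
      simpa using this
    refine ⟨?_, fun w => ?_⟩
    · have := psi1Aux_spec rho hv ⟨g, h⟩
      rwa [e1, one_smul] at this
    · have := sub_qeig_smul_mem rho hspan ⟨g, h⟩ w
      have e2' : qeig rho hspan ⟨g, h⟩ = 1 := e2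
      rwa [e2', one_smul] at this
  · rw [hSeq]
    exact S.not_dvd_index

end bundle

end Fermat.Agent.S56.Base.TI
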